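import Mathlib
import Fermat.Agent.S28.H685.JFun
import Fermat.Agent.S28.H628.Hermite
import Fermat.Agent.S28.H807.Points

/-!
# S28 [A-Φ]/[A-W]: the `S`-symmetry of the `p + 1` conjugates (helper25)

Geometry of the points `pτ`, `(τ + b)/p` under `τ ↦ -1/τ`, and the transformation laws of
`j` and `Δ`.
-/

set_option autoImplicit false

open UpperHalfPlane hiding I
open ModularForm EisensteinSeries
open scoped MatrixGroups

noncomputable section

namespace Fermat.Agent.S28.H25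

open Fermat.Agent.S28.H685 (jFun)
open Fermat.Agent.S28.H807 (divShift mulNat coe_divShift coe_mulNat)

/-- `Δ(γτ) = (cτ+d)¹² Δ(τ)`. -/
theorem disc_smul (γ : SL(2, ℤ)) (τ : ℍ) :
    ModularForm.discriminant (γ • τ) =
      (denom ((γ : SL(2, ℤ)) : GL (Fin 2) ℝ) τ) ^ (12 : ℤ) * ModularForm.discriminant τ := by
  have hγ : ((γ : SL(2, ℤ)) : GL (Fin 2) ℝ) ∈ 𝒮ℒ := ⟨γ, rfl⟩
  have h2 : CuspForm.discriminant (γ • τ) = _ :=
    SlashInvariantForm.slash_action_eqn'' CuspForm.discriminant hγ τ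
  rw [CuspForm.coe_discriminant] at h2
  exact h2

/-- `E₄(γτ) = (cτ+d)⁴ E₄(τ)`. -/
theorem E4_smul (γ : SL(2, ℤ)) (τ : ℍ) :
    E₄ (γ • τ) = (denom ((γ : SL(2, ℤ)) : GL (Fin 2) ℝ) τ) ^ (4 : ℤ) * E₄ τ := by
  have hγ : ((γ : SL(2, ℤ)) : GL (Fin 2) ℝ) ∈ 𝒮ℒ := ⟨γ, rfl⟩
  exact SlashInvariantForm.slash_action_eqn'' E₄ hγ τ

/-- `j(γτ) = j(τ)`. -/
theorem jFun_smul (γ : SL(2, ℤ)) (τ : ℍ) : jFun (γ • τ) = jFun τ := by
  have hd : denom ((γ : SL(2, ℤ)) : GL (Fin 2) ℝ) τ ≠ 0 := denom_ne_zero _ _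
  have hΔ := discriminant_ne_zero τ
  rw [jFun, jFun, E4_smul, disc_smul]
  rw [div_eq_div_iff (mul_ne_zero (zpow_ne_zero _ hd) hΔ) hΔ]
  rw [mul_pow, ← zpow_natCast, ← zpow_mul]
  norm_num
  ring

theorem denom_SL (γ : SL(2, ℤ)) (τ : ℍ) :
    denom ((γ : SL(2, ℤ)) : GL (Fin 2) ℝ) τ = (γ 1 0 : ℂ) * τ + (γ 1 1 : ℂ) := by
  simp [denom]

theorem coe_S_smul (τ : ℍ) : ((ModularGroup.S • τ : ℍ) : ℂ) = -1 / (τ : ℂ) := by
  rw [Fermat.Agent.S28.H628.SL2_coe_smul]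
  simp [ModularGroup.S]

theorem denom_S (τ : ℍ) :
    denom ((ModularGroup.S : SL(2, ℤ)) : GL (Fin 2) ℝ) τ = (τ : ℂ) := by
  rw [denom_SL]
  simp [ModularGroup.S]

/-- The matrix `(b, -m; p, -b')` with `b b' + 1 = p m`. -/
def gammaMat (p : ℕ) (b b' m : ℤ) (h : b * b' + 1 = p * m) : SL(2, ℤ) :=
  ⟨!![b, -m; (p : ℤ), -b'], by rw [Matrix.det_fin_two_of]; linarith⟩

theorem mulNat_S (p : ℕ) [NeZero p] (τ : ℍ) :
    mulNat p (ModularGroup.S • τ) = ModularGroup.S • divShift p 0 τ := by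
  have hτ : (τ : ℂ) ≠ 0 := ne_zero τ
  have hp : (p : ℂ) ≠ 0 := by exact_mod_cast NeZero.ne p
  apply UpperHalfPlane.ext
  rw [coe_mulNat, coe_S_smul, coe_S_smul, coe_divShift]
  simp only [Int.cast_zero, add_zero]
  field_simp

theorem divShift_zero_S (p : ℕ) [NeZero p] (τ : ℍ) :
    divShift p 0 (ModularGroup.S • τ) = ModularGroup.S • mulNat p τ := by
  have hτ : (τ : ℂ) ≠ 0 := ne_zero τ
  have hp : (p : ℂ) ≠ 0 := by exact_mod_cast NeZero.ne p
  apply UpperHalfPlane.ext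
  rw [coe_divShift, coe_S_smul, coe_S_smul, coe_mulNat]
  simp only [Int.cast_zero, add_zero]
  field_simp

theorem denom_gammaMat (p : ℕ) [NeZero p] (b b' m : ℤ) (h : b * b' + 1 = p * m) (τ : ℍ) :
    denom ((gammaMat p b b' m h : SL(2, ℤ)) : GL (Fin 2) ℝ) (divShift p b' τ) = (τ : ℂ) := by
  have hp : (p : ℂ) ≠ 0 := by exact_mod_cast NeZero.ne p
  rw [denom_SL, coe_divShift]
  simp only [gammaMat, Matrix.SpecialLinearGroup.coe_mk, Matrix.of_apply, Matrix.cons_val',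
    Matrix.cons_val_zero, Matrix.cons_val_one, Matrix.cons_val_fin_one]
  push_cast
  field_simp
  ring

theorem divShift_S (p : ℕ) [NeZero p] (b b' m : ℤ) (h : b * b' + 1 = p * m) (τ : ℍ) :
    divShift p b (ModularGroup.S • τ) = gammaMat p b b' m h • divShift p b' τ := by
  have hτ : (τ : ℂ) ≠ 0 := ne_zero τ
  have hp : (p : ℂ) ≠ 0 := by exact_mod_cast NeZero.ne p
  have hC : (b : ℂ) * b' + 1 = p * m := by exact_mod_cast h
  apply UpperHalfPlane.ext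
  rw [coe_divShift, coe_S_smul, Fermat.Agent.S28.H628.SL2_coe_smul, coe_divShift]
  simp only [gammaMat, Matrix.SpecialLinearGroup.coe_mk, Matrix.of_apply, Matrix.cons_val',
    Matrix.cons_val_zero, Matrix.cons_val_one, Matrix.cons_val_fin_one]
  push_cast
  have hden : (p : ℂ) * (((τ : ℂ) + b') / p) + -(b' : ℂ) = τ := by
    field_simp
    ring
  rw [hden]
  field_simp
  linear_combination (-1 : ℂ) * hC

theorem mulNat_divShift (p : ℕ) [NeZero p] (b : ℤ) (τ : ℍ) :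
    mulNat p (divShift p b τ) = ModularGroup.T ^ b • τ := by
  have hp : (p : ℂ) ≠ 0 := by exact_mod_cast NeZero.ne p
  apply UpperHalfPlane.ext
  rw [coe_mulNat, coe_divShift, modular_T_zpow_smul, coe_vadd]
  push_cast
  field_simp
  ring

theorem disc_T_zpow (b : ℤ) (τ : ℍ) :
    ModularForm.discriminant (ModularGroup.T ^ b • τ) = ModularForm.discriminant τ := by
  rw [disc_smul, denom_SL]
  simp [ModularGroup.coe_T_zpow]

end Fermat.Agent.S28.H25
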