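import Mathlib
import Fermat.Agent.S28.H25.SymGeom

/-!
# S28 [A-Φ]/[A-W]: `S`-invariance of `(X - E τ) ∏_b (X - G((τ+b)/p))` (helper25)
-/

set_option autoImplicit false

open UpperHalfPlane hiding I
open ModularForm EisensteinSeries Polynomial
open scoped MatrixGroups

noncomputable section

namespace Fermat.Agent.S28.H25

open Fermat.Agent.S28.H685 (jFun)
open Fermat.Agent.S28.H807 (divShift mulNat coe_divShift coe_mulNat)

/-- `S`-compatibility of a pair `(E, G)` at level `p`: `S` swaps `E` with `G(τ/p)` and permutes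
the `G((τ+b)/p)`, `b ≢ 0`, by `b ↦ b'`, `b b' ≡ -1 mod p`. -/
structure SPair (p : ℕ) [NeZero p] (E G : ℍ → ℂ) : Prop where
  inf : ∀ τ, E (ModularGroup.S • τ) = G (divShift p 0 τ)
  zero : ∀ τ, G (divShift p 0 (ModularGroup.S • τ)) = E τ
  mid : ∀ (b b' m : ℤ) (_ : b * b' + 1 = p * m) (τ : ℍ),
    G (divShift p b (ModularGroup.S • τ)) = G (divShift p b' τ)

/-- The `j`-pair `(j(pτ), j)`. -/
theorem sPair_j (p : ℕ) [NeZero p] : SPair p (fun τ => jFun (mulNat p τ)) jFun where
  inf τ := by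
    show jFun (mulNat p (ModularGroup.S • τ)) = jFun (divShift p 0 τ)
    rw [mulNat_S, jFun_smul]
  zero τ := by
    show jFun (divShift p 0 (ModularGroup.S • τ)) = jFun (mulNat p τ)
    rw [divShift_zero_S, jFun_smul]
  mid b b' m h τ := by
    rw [divShift_S p b b' m h, jFun_smul]

/-- The `Δ`-quotient at `z`: `Δ(z)/Δ(pz)`. -/
def discQuot (p : ℕ) [NeZero p] (z : ℍ) : ℂ :=
  ModularForm.discriminant z / ModularForm.discriminant (mulNat p z)

/-- `p¹² Δ(pτ)/Δ(τ)`. -/
def discQuotInf (p : ℕ) [NeZero p] (τ : ℍ) : ℂ :=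
  (p : ℂ) ^ 12 * ModularForm.discriminant (mulNat p τ) / ModularForm.discriminant τ

theorem discQuot_divShift (p : ℕ) [NeZero p] (b : ℤ) (τ : ℍ) :
    discQuot p (divShift p b τ) =
      ModularForm.discriminant (divShift p b τ) / ModularForm.discriminant τ := by
  rw [discQuot, mulNat_divShift, disc_T_zpow]

theorem disc_S (τ : ℍ) :
    ModularForm.discriminant (ModularGroup.S • τ) =
      (τ : ℂ) ^ 12 * ModularForm.discriminant τ := by
  rw [disc_smul, denom_S]
  norm_cast

/-- The `Δ`-pair `(p¹² Δ(pτ)/Δ(τ), Δ(z)/Δ(pz))`. -/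
theorem sPair_disc (p : ℕ) [NeZero p] : SPair p (discQuotInf p) (discQuot p) where
  inf τ := by
    have hτ : (τ : ℂ) ≠ 0 := ne_zero τ
    have hp : (p : ℂ) ≠ 0 := by exact_mod_cast NeZero.ne p
    have hΔ := discriminant_ne_zero τ
    rw [discQuot_divShift, discQuotInf, mulNat_S, disc_S, disc_S, coe_divShift]
    simp only [Int.cast_zero, add_zero]
    field_simp
  zero τ := by
    have hτ : (τ : ℂ) ≠ 0 := ne_zero τ
    have hp : (p : ℂ) ≠ 0 := by exact_mod_cast NeZero.ne p
    have hΔ := discriminant_ne_zero τ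
    rw [discQuot_divShift, discQuotInf, divShift_zero_S, disc_S, disc_S, coe_mulNat]
    field_simp
  mid b b' m h τ := by
    have hτ : (τ : ℂ) ≠ 0 := ne_zero τ
    have hΔ := discriminant_ne_zero τ
    rw [discQuot_divShift, discQuot_divShift, divShift_S p b b' m h, disc_smul,
      denom_gammaMat, disc_S]
    have : ((τ : ℂ) ^ (12 : ℤ)) = (τ : ℂ) ^ 12 := by norm_cast
    rw [this]
    field_simp

section involution

variable (p : ℕ) [hp : Fact p.Prime]

/-- `b ↦ -b⁻¹ mod p` on `Fin p`. -/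
def negInv (b : Fin p) : Fin p :=
  have : NeZero p := ⟨hp.out.ne_zero⟩
  ⟨(-((b.val : ZMod p))⁻¹).val, ZMod.val_lt _⟩

theorem negInv_cast (b : Fin p) :
    (((negInv p b).val : ℕ) : ZMod p) = -((b.val : ZMod p))⁻¹ := by
  have : NeZero p := ⟨hp.out.ne_zero⟩
  simp [negInv]

theorem cast_ne_zero_of_val_ne_zero {b : Fin p} (hb : b.val ≠ 0) : ((b.val : ℕ) : ZMod p) ≠ 0 := by
  intro h
  rw [ZMod.natCast_eq_zero_iff] at h
  exact hb (Nat.eq_zero_of_dvd_of_lt h b.2)

theorem negInv_val_ne_zero {b : Fin p} (hb : b.val ≠ 0) : (negInv p b).val ≠ 0 := by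
  intro h
  have h1 := negInv_cast p b
  rw [h, Nat.cast_zero] at h1
  have h2 := cast_ne_zero_of_val_ne_zero p hb
  have : ((b.val : ZMod p))⁻¹ = 0 := by
    rw [eq_comm, neg_eq_zero] at h1
    exact h1
  exact h2 (inv_eq_zero.mp this)

theorem negInv_negInv {b : Fin p} (hb : b.val ≠ 0) : negInv p (negInv p b) = b := by
  have : NeZero p := ⟨hp.out.ne_zero⟩
  apply Fin.ext
  have h2 := cast_ne_zero_of_val_ne_zero p hb
  show (-(((negInv p b).val : ZMod p))⁻¹).val = b.val
  rw [negInv_cast, inv_neg, neg_neg, inv_inv, ZMod.val_natCast_of_lt b.2]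

theorem negInv_spec {b : Fin p} (hb : b.val ≠ 0) :
    ∃ m : ℤ, (b.val : ℤ) * ((negInv p b).val : ℤ) + 1 = p * m := by
  have h2 := cast_ne_zero_of_val_ne_zero p hb
  have h3 : (((b.val : ℤ) * ((negInv p b).val : ℤ) + 1 : ℤ) : ZMod p) = 0 := by
    push_cast
    rw [negInv_cast, mul_neg, mul_inv_cancel₀ h2]
    ring
  rw [ZMod.intCast_zmod_eq_zero_iff_dvd] at h3
  obtain ⟨m, hm⟩ := h3
  exact ⟨m, hm⟩

end involution

/-- **(SYM-S)** For an `S`-compatible pair, the polynomial
`(X - E τ) ∏_{b < p} (X - G((τ+b)/p))` is invariant under `τ ↦ -1/τ`. -/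
theorem prod_S_invariant (p : ℕ) [hp : Fact p.Prime] [NeZero p] {E G : ℍ → ℂ}
    (h : SPair p E G) (τ : ℍ) :
    (X - C (E (ModularGroup.S • τ))) *
        ∏ b : Fin p, (X - C (G (divShift p ((b : ℕ) : ℤ) (ModularGroup.S • τ)))) =
      (X - C (E τ)) * ∏ b : Fin p, (X - C (G (divShift p ((b : ℕ) : ℤ) τ))) := by
  have hp0 : 0 < p := hp.out.pos
  let z : Fin p := ⟨0, hp0⟩
  set F : Fin p → ℂ[X] := fun b => X - C (G (divShift p ((b : ℕ) : ℤ) (ModularGroup.S • τ)))
    with hF
  set H : Fin p → ℂ[X] := fun b => X - C (G (divShift p ((b : ℕ) : ℤ) τ)) with hH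
  have h1 : X - C (E (ModularGroup.S • τ)) = H z := by
    simp only [hH, z]
    rw [h.inf]
    simp
  have h2 : F z = X - C (E τ) := by
    simp only [hF, z]
    have := h.zero τ
    simp only [Nat.cast_zero, Int.cast_zero] at this ⊢
    rw [this]
  have h3 : ∀ b : Fin p, b ≠ z → F b = H (negInv p b) := by
    intro b hb
    have hb' : b.val ≠ 0 := fun h0 => hb (Fin.ext h0)
    obtain ⟨m, hm⟩ := negInv_spec p hb'
    simp only [hF, hH]
    rw [h.mid _ _ m hm]
  have hz : ∀ b : Fin p, b ≠ z ↔ b.val ≠ 0 := by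
    intro b
    constructor
    · intro hb h0
      exact hb (Fin.ext h0)
    · intro hb h0
      exact hb (by rw [h0])
  have h4 : ∏ b ∈ (Finset.univ.erase z), F b = ∏ b ∈ (Finset.univ.erase z), H b := by
    apply Finset.prod_bij' (fun b _ => negInv p b) (fun b _ => negInv p b)
    · intro b hb
      rw [Finset.mem_erase] at hb ⊢
      exact ⟨(hz _).mpr (negInv_val_ne_zero p ((hz b).mp hb.1)), Finset.mem_univ _⟩
    · intro b hb
      rw [Finset.mem_erase] at hb ⊢
      exact ⟨(hz _).mpr (negInv_val_ne_zero p ((hz b).mp hb.1)), Finset.mem_univ _⟩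
    · intro b hb
      rw [Finset.mem_erase] at hb
      exact negInv_negInv p ((hz b).mp hb.1)
    · intro b hb
      rw [Finset.mem_erase] at hb
      exact negInv_negInv p ((hz b).mp hb.1)
    · intro b hb
      rw [Finset.mem_erase] at hb
      exact h3 b hb.1
  rw [← Finset.mul_prod_erase Finset.univ F (Finset.mem_univ z),
    ← Finset.mul_prod_erase Finset.univ H (Finset.mem_univ z), h4, h1, h2]
  ring

end Fermat.Agent.S28.H25
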