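import Mathlib
import Fermat.Agent.S28.Defs
import Fermat.Agent.S28.H88.PrimeLevel
import Fermat.Agent.S28.H685.JIntegral
import Fermat.Agent.S28.H807.Points
import Fermat.Agent.S28.H25.SymProd

/-!
# S28 [A-Φ]/[A-W]: from an `S`-compatible pair to a monic polynomial over `ℤ[j]` (helper25)

Generic theorem: if `g, e ∈ ℤ((q))` are the `q`-expansions of `G, E : ℍ → ℂ` and `(E, G)` is an
`S`-compatible pair at the prime `p`, then `(X - e) · charpoly (secMat p g)` has coefficients in
`ℤ[j]`, i.e. it is the image of a monic `Φ ∈ ℤ[Y][X]` of degree `p + 1`.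
-/

set_option autoImplicit false

open UpperHalfPlane hiding I
open ModularCurve Polynomial
open scoped MatrixGroups

noncomputable section

namespace Fermat.Agent.S28.H25

open Fermat.Agent.S28 (evalAt)
open Fermat.Agent.S28.H685 (jFun HasQLaurent)
open Fermat.Agent.S28.H807 (divShift mulNat secMat)

/-- Coefficientwise `ℤ → ℂ` on Laurent series. -/
abbrev cmC : LaurentSeries ℤ →+* LaurentSeries ℂ := coeffMap (Int.castRingHom ℂ)

theorem cmC_injective : Function.Injective cmC := by
  intro x y h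
  ext n
  have := congrArg (fun z : LaurentSeries ℂ => z.coeff n) h
  simpa [cmC, coeffMap_coeff] using this

theorem hasQLaurent_of_hasQExp807 {c : LaurentSeries ℂ} {F : ℍ → ℂ}
    (h : Fermat.Agent.S28.H807.HasQExp c F) : HasQLaurent 1 F c :=
  (Fermat.Agent.S28.H807.hasQExp_iff c F).mp h

theorem hasQExp807_of_hasQLaurent {c : LaurentSeries ℂ} {F : ℍ → ℂ}
    (h : HasQLaurent 1 F c) : Fermat.Agent.S28.H807.HasQExp c F :=
  (Fermat.Agent.S28.H807.hasQExp_iff c F).mpr h

/-- `coeffMap` of an integral polynomial in `j` is the complex `aeval`. -/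
theorem cmC_evalAt (Q : Polynomial ℤ) :
    cmC (evalAt (jqModC ℤ) Q) =
      Polynomial.aeval (jqModC ℂ) (Q.map (Int.castRingHom ℂ)) := by
  have h : cmC.comp (evalAt (jqModC ℤ)) =
      ((Polynomial.aeval (jqModC ℂ)).toRingHom).comp
        (Polynomial.mapRingHom (Int.castRingHom ℂ)) := by
    apply Polynomial.ringHom_ext
    · intro a
      simp [evalAt]
    · simp [evalAt, coeffMap_jqModC]
  exact congrArg (fun f : Polynomial ℤ →+* LaurentSeries ℂ => f Q) h

/-- The key step: every coefficient of `(X - e) · charpoly (secMat p g)` is an integral polynomial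
in `j`. -/
theorem exists_coeff_eq_evalAt (p : ℕ) [Fact p.Prime] [NeZero p] (g e : LaurentSeries ℤ)
    (G E : ℍ → ℂ) (hG : Fermat.Agent.S28.H807.HasQExp (cmC g) G)
    (hE : Fermat.Agent.S28.H807.HasQExp (cmC e) E) (hS : SPair p E G) (k : ℕ) :
    ∃ Q : Polynomial ℤ,
      evalAt (jqModC ℤ) Q = ((X - C e) * (secMat p g).charpoly).coeff k := by
  have hk := Fermat.Agent.S28.H807.hasQExp_coeff_mul_charpoly p (cmC g) (cmC e) G E hG hE k
  have hφ : ((X - C (cmC e)) * (secMat p (cmC g)).charpoly).coeff k =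
      cmC (((X - C e) * (secMat p g).charpoly).coeff k) := by
    rw [← Polynomial.coeff_map, Polynomial.map_mul, Polynomial.map_sub, Polynomial.map_X,
      Polynomial.map_C, ← Matrix.charpoly_map]
    rw [show (secMat p g).map (⇑cmC) = secMat p (cmC g) from
      (Fermat.Agent.S28.H807.secMat_coeffMap (Int.castRingHom ℂ) p g).symm]
  rw [hφ] at hk
  have hSk : ∀ τ, (fun τ => ((X - C (E τ)) *
      ∏ b : Fin p, (X - C (G (divShift p ((b : ℕ) : ℤ) τ)))).coeff k) (ModularGroup.S • τ) =
      (fun τ => ((X - C (E τ)) *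
      ∏ b : Fin p, (X - C (G (divShift p ((b : ℕ) : ℤ) τ)))).coeff k) τ := by
    intro τ
    simp only
    rw [prod_S_invariant p hS τ]
  obtain ⟨P, hPmem, hPeq, -⟩ :=
    Fermat.Agent.S28.H685.exists_polynomial_of_S_invariant_of_mem (Int.castRingHom ℂ).range _ _
      (fun n => by
        rw [coeffMap_coeff]
        exact ⟨_, rfl⟩)
      (hasQLaurent_of_hasQExp807 hk) hSk
  have hlift : P ∈ Polynomial.lifts (Int.castRingHom ℂ) := by
    rw [Polynomial.lifts_iff_coeff_lifts]
    intro n
    exact hPmem n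
  obtain ⟨Q, hQ⟩ := (Polynomial.mem_lifts _).mp hlift
  refine ⟨Q, ?_⟩
  apply cmC_injective
  rw [cmC_evalAt, hQ, ← hPeq]

/-- **Generic theorem.** -/
theorem exists_poly_of_sPair (p : ℕ) [Fact p.Prime] [NeZero p] (g e : LaurentSeries ℤ)
    (G E : ℍ → ℂ) (hG : Fermat.Agent.S28.H807.HasQExp (cmC g) G)
    (hE : Fermat.Agent.S28.H807.HasQExp (cmC e) E) (hS : SPair p E G) :
    ∃ Φ : Polynomial (Polynomial ℤ), Φ.Monic ∧ Φ.natDegree = p + 1 ∧
      Φ.map (evalAt (jqModC ℤ)) = (X - C e) * (secMat p g).charpoly := by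
  classical
  set Ψ : Polynomial (LaurentSeries ℤ) := (X - C e) * (secMat p g).charpoly with hΨ
  have hΨmonic : Ψ.Monic := (monic_X_sub_C e).mul (Matrix.charpoly_monic _)
  have hΨdeg : Ψ.natDegree = p + 1 := by
    rw [hΨ, Polynomial.Monic.natDegree_mul (monic_X_sub_C e) (Matrix.charpoly_monic _),
      natDegree_X_sub_C, Matrix.charpoly_natDegree_eq_dim, Fintype.card_fin, add_comm]
  choose Q hQ using exists_coeff_eq_evalAt p g e G E hG hE hS
  set Φ : Polynomial (Polynomial ℤ) :=
    X ^ (p + 1) + ∑ k ∈ Finset.range (p + 1), C (Q k) * X ^ k with hΦ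
  have hcoeff : ∀ m : ℕ, (∑ k ∈ Finset.range (p + 1), C (Q k) * X ^ k :
      Polynomial (Polynomial ℤ)).coeff m = if m < p + 1 then Q m else 0 := by
    intro m
    rw [Polynomial.finsetSum_coeff]
    simp only [Polynomial.coeff_C_mul_X_pow]
    rw [Finset.sum_ite_eq (Finset.range (p + 1)) m (fun k => Q k)]
    simp [Finset.mem_range]
  have hlt : (∑ k ∈ Finset.range (p + 1), C (Q k) * X ^ k : Polynomial (Polynomial ℤ)).degree
      < ((p + 1 : ℕ) : WithBot ℕ) := by
    rw [Polynomial.degree_lt_iff_coeff_zero]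
    intro m hm
    rw [hcoeff, if_neg (by omega)]
  have hΦmonic : Φ.Monic := Polynomial.monic_X_pow_add hlt
  have hΦdeg : Φ.natDegree = p + 1 := by
    have h1 : Φ.degree = ((p + 1 : ℕ) : WithBot ℕ) := by
      rw [hΦ, Polynomial.degree_add_eq_left_of_degree_lt]
      · exact Polynomial.degree_X_pow _
      · rw [Polynomial.degree_X_pow]
        exact hlt
    exact Polynomial.natDegree_eq_of_degree_eq_some h1
  refine ⟨Φ, hΦmonic, hΦdeg, ?_⟩
  rw [hΨmonic.as_sum, hΨdeg, hΦ, Polynomial.map_add, Polynomial.map_pow, Polynomial.map_X,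
    Polynomial.map_sum]
  congr 1
  apply Finset.sum_congr rfl
  intro k _
  rw [Polynomial.map_mul, Polynomial.map_C, Polynomial.map_pow, Polynomial.map_X, hQ k]

end Fermat.Agent.S28.H25
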