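import Mathlib
import Fermat.Prelude.Thm_ModularCurve_coeffMap_qExpand
import Fermat.Agent.S28.H25.PolyGeneric
import Fermat.Agent.S28.H25.Theta

/-!
# S28 [A-Φ], [A-W]: the modular polynomial `Φ_p` and the unit polynomial `W_p` (helper25)

`nonempty_modPolyData p` and `nonempty_unitPolyData p` in the exact shape of the captain skeleton
(`Fermat.Agent.S28.ModPolyData`, `Fermat.Agent.S28.UnitPolyData`), built from helper807's section
matrix (`H807`), helper685's `j`-polynomial principle (`H685`) and the `S`-symmetry (`SymProd`).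
-/

set_option autoImplicit false

open UpperHalfPlane hiding I
open ModularCurve Polynomial
open scoped MatrixGroups

noncomputable section

namespace Fermat.Agent.S28.H25

open Fermat.Agent.S28 (evalAt ModPolyData UnitPolyData deltaL deltaInvL unitL)
open Fermat.Agent.S28.H685 (jFun HasQLaurent)
open Fermat.Agent.S28.H807 (divShift mulNat secMat)

/-! ### `q`-expansions -/

theorem hasQExp_jFun : Fermat.Agent.S28.H807.HasQExp (cmC (jqModC ℤ)) jFun := by
  rw [show cmC (jqModC ℤ) = jqModC ℂ from coeffMap_jqModC _]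
  exact hasQExp807_of_hasQLaurent Fermat.Agent.S28.H685.hasQLaurent_jFun

theorem hasQExp_jFun_mulNat (p : ℕ) [NeZero p] :
    Fermat.Agent.S28.H807.HasQExp (cmC (qExpand ℤ p (jqModC ℤ)))
      (fun τ => jFun (mulNat p τ)) := by
  rw [show cmC (qExpand ℤ p (jqModC ℤ)) = qExpand ℂ p (cmC (jqModC ℤ)) from
    coeffMap_qExpand _ _ _]
  exact hasQExp_jFun.mulNat p

theorem hasQLaurent_disc : HasQLaurent 1 (fun τ => ModularForm.discriminant τ) (deltaL ℂ) := by
  have h1 : Fermat.Agent.S28.H685.HasQExp 1 (fun τ => ModularForm.discriminant τ)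
      (PowerSeries.X * Fermat.Agent.S28.H685.dedekindEtaUnitC) :=
    (Fermat.Agent.S28.H685.HasQExp.X.mul
      Fermat.Agent.S28.H685.hasQExp_dedekindEtaUnitC).congr_fun
      (fun τ => (Fermat.Agent.S28.H685.discriminant_eq_etaC τ).symm)
  have h2 := HasQLaurent.of_hasQExp h1
  have h3 : HahnSeries.ofPowerSeries ℤ ℂ (PowerSeries.X * Fermat.Agent.S28.H685.dedekindEtaUnitC)
      = deltaL ℂ := by
    rw [map_mul, HahnSeries.ofPowerSeries_X, deltaL]
    rfl
  rw [h3] at h2
  exact h2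

theorem deltaL_ne_zero_C : deltaL ℂ ≠ 0 := by
  intro h
  have := Fermat.Agent.S28.h88_deltaL_mul_deltaInvL ℂ
  rw [h, zero_mul] at this
  exact zero_ne_one this

theorem deltaL_inv_C : (deltaL ℂ)⁻¹ = deltaInvL ℂ := by
  have := Fermat.Agent.S28.h88_deltaL_mul_deltaInvL ℂ
  exact inv_eq_of_mul_eq_one_right this

theorem hasQLaurent_disc_inv :
    HasQLaurent 1 (fun τ => (ModularForm.discriminant τ)⁻¹) (deltaInvL ℂ) := by
  have := hasQLaurent_disc.inv one_pos (fun τ => ModularForm.discriminant_ne_zero τ)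
    deltaL_ne_zero_C
  rwa [deltaL_inv_C] at this

theorem hasQExp_discQuotInf (p : ℕ) [NeZero p] :
    Fermat.Agent.S28.H807.HasQExp (cmC ((p : LaurentSeries ℤ) ^ 12 * unitL ℤ p))
      (discQuotInf p) := by
  have h1 := (hasQExp807_of_hasQLaurent hasQLaurent_disc).mulNat p
  have h2 := hasQExp807_of_hasQLaurent hasQLaurent_disc_inv
  have h3 := (Fermat.Agent.S28.H807.hasQExp_C ((p : ℂ) ^ 12)).mul (h1.mul h2)
  have hs : cmC ((p : LaurentSeries ℤ) ^ 12 * unitL ℤ p) =
      HahnSeries.C ((p : ℂ) ^ 12) * (qExpand ℂ p (deltaL ℂ) * deltaInvL ℂ) := by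
    rw [map_mul, map_pow, map_natCast, Fermat.Agent.S28.h88_coeffMap_unitL, unitL, map_pow,
      map_natCast]
  rw [hs]
  refine fun τ => ?_
  have := h3 τ
  convert this using 1
  simp only [discQuotInf]
  rw [div_eq_mul_inv, mul_assoc]

theorem hasQExp_discQuot (p : ℕ) [NeZero p] :
    Fermat.Agent.S28.H807.HasQExp (cmC (deltaL ℤ * qExpand ℤ p (deltaInvL ℤ)))
      (discQuot p) := by
  have h1 := hasQExp807_of_hasQLaurent hasQLaurent_disc
  have h2 := (hasQExp807_of_hasQLaurent hasQLaurent_disc_inv).mulNat p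
  have h3 := h1.mul h2
  have hs : cmC (deltaL ℤ * qExpand ℤ p (deltaInvL ℤ)) =
      deltaL ℂ * qExpand ℂ p (deltaInvL ℂ) := by
    rw [map_mul, Fermat.Agent.S28.h88_coeffMap_deltaL]
    congr 1
    rw [show cmC (qExpand ℤ p (deltaInvL ℤ)) = qExpand ℂ p (cmC (deltaInvL ℤ)) from
      coeffMap_qExpand _ _ _, Fermat.Agent.S28.h88_coeffMap_deltaInvL]
  rw [hs]
  refine fun τ => ?_
  have := h3 τ
  convert this using 1
  simp only [discQuot]
  rw [div_eq_mul_inv]

/-! ### The two prime-level inputs -/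

/-- **[A-Φ]** existence of the modular polynomial of prime level `p`. -/
theorem nonempty_modPolyData (p : ℕ) [NeZero p] (hp : p.Prime) : Nonempty (ModPolyData p) := by
  have : Fact p.Prime := ⟨hp⟩
  obtain ⟨Φ, hmonic, hdeg, hmap⟩ := exists_poly_of_sPair p (jqModC ℤ) (qExpand ℤ p (jqModC ℤ))
    jFun (fun τ => jFun (mulNat p τ)) hasQExp_jFun (hasQExp_jFun_mulNat p) (sPair_j p)
  refine ⟨⟨Φ, hmonic, hdeg, ?_, ?_⟩⟩
  · rw [Polynomial.eval₂_eq_eval_map, hmap, Polynomial.eval_mul, Polynomial.eval_sub,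
      Polynomial.eval_X, Polynomial.eval_C, sub_self, zero_mul]
  · have hcomp : evalAt (qExpand ℤ p (jqModC ℤ)) = (qExpand ℤ p).comp (evalAt (jqModC ℤ)) := by
      apply Polynomial.ringHom_ext
      · intro a
        simp [evalAt]
      · simp [evalAt]
    rw [hcomp, Polynomial.eval₂_eq_eval_map, ← Polynomial.map_map, hmap, Polynomial.map_mul,
      Polynomial.eval_mul, Fermat.Agent.S28.H807.secMat_charpoly_eval, mul_zero]

/-- **[A-W]** `p¹² Δ(q^p)/Δ(q)` is integral over `ℤ[j]`. -/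
theorem nonempty_unitPolyData (p : ℕ) [NeZero p] (hp : p.Prime) : Nonempty (UnitPolyData p) := by
  have : Fact p.Prime := ⟨hp⟩
  obtain ⟨W, hmonic, -, hmap⟩ := exists_poly_of_sPair p (deltaL ℤ * qExpand ℤ p (deltaInvL ℤ))
    ((p : LaurentSeries ℤ) ^ 12 * unitL ℤ p) (discQuot p) (discQuotInf p)
    (hasQExp_discQuot p) (hasQExp_discQuotInf p) (sPair_disc p)
  refine ⟨⟨W, hmonic, ?_⟩⟩
  rw [Polynomial.eval₂_eq_eval_map, hmap, Polynomial.eval_mul, Polynomial.eval_sub,
    Polynomial.eval_X, Polynomial.eval_C, sub_self, zero_mul]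

end Fermat.Agent.S28.H25
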